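import Mathlib
import Fermat.Agent.LT.T7.EKM
import Fermat.Agent.LT.T7.H231.Places
import Fermat.Agent.LT.T7.H922.DictFQ

/-!
# Row LT, tower T7, EK places WITHOUT class field theory (helper619), part 2: the abstract core

OFF-MAIN.  `goodEKM_core619`: let `p` be a prime number with `p + 1 ∈ 𝔑` such that every place `w`
of `K` over `p` lies outside `S`, is prime to `𝔑`, has norm `p ^ f`, and `Φ` has `a_w = 0`,
`b_w = 1` there (Satake parameters `(i, -i)`).  If `[K : ℚ] = f k` with `k` ODD, then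
`a₀ = -p`, `P` = the places over `p`, `e_w` = the exponent of `w` in `(p)` is a multi-place EK
datum in the sense of `T7.GoodEKM`: `∑ e_w = k` is odd (norms), and the square of
`∏ z_w ^ e_w` is `(-1) ^ k = -1`.
-/

set_option autoImplicit false
set_option linter.unusedSectionVars false
set_option linter.style.haveILetI false

open AutomorphicForm IsDedekindDomain NumberField

noncomputable section

namespace Fermat.Agent.LT.T7.H619

open Fermat.Agent.LT.T7 Fermat.Agent.LT.T7.H231 Fermat.Agent.LT.T7.H922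

variable {K : Type} [Field K] [NumberField K]

/-- The exponent of the place `v` in the ideal `I`. -/
def expAt619 (I : Ideal (𝓞 K)) (v : HeightOneSpectrum (𝓞 K)) : ℕ :=
  (Associates.mk v.asIdeal).count (Associates.mk I).factors

theorem expAt_pos_iff619 {I : Ideal (𝓞 K)} (hI : I ≠ ⊥) (v : HeightOneSpectrum (𝓞 K)) :
    0 < expAt619 I v ↔ I ≤ v.asIdeal := by
  unfold expAt619
  rw [Nat.pos_iff_ne_zero, Associates.count_ne_zero_iff_dvd hI v.irreducible, Ideal.dvd_iff_le]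

/-- The factorisation of `I` over a finite set containing the places which divide `I`. -/
theorem prod_expAt619 {I : Ideal (𝓞 K)} (hI : I ≠ ⊥) (P : Finset (HeightOneSpectrum (𝓞 K)))
    (hP : ∀ v : HeightOneSpectrum (𝓞 K), I ≤ v.asIdeal → v ∈ P) :
    ∏ v ∈ P, v.asIdeal ^ expAt619 I v = I := by
  have h := Ideal.finprod_heightOneSpectrum_factorization hI
  have hsub : Function.mulSupport (fun v : HeightOneSpectrum (𝓞 K) => v.maxPowDividing I)
      ⊆ (P : Set (HeightOneSpectrum (𝓞 K))) := by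
    intro v hv
    rw [Function.mem_mulSupport] at hv
    apply hP
    by_contra hle
    apply hv
    have h0 : expAt619 I v = 0 := by
      by_contra h0
      exact hle ((expAt_pos_iff619 hI v).mp (Nat.pos_of_ne_zero h0))
    show v.asIdeal ^ expAt619 I v = 1
    rw [h0, pow_zero]
  rw [finprod_eq_prod_of_mulSupport_subset _ hsub] at h
  exact h

theorem absNorm_span_natCast619 (p : ℕ) :
    Ideal.absNorm (Ideal.span {((p : ℕ) : 𝓞 K)}) = p ^ Module.finrank ℚ K := by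
  rw [Ideal.absNorm_span_singleton]
  have h1 : ((p : ℕ) : 𝓞 K) = algebraMap ℤ (𝓞 K) (p : ℤ) := by simp
  rw [h1, Algebra.norm_algebraMap, RingOfIntegers.rank, Int.natAbs_pow, Int.natAbs_natCast]

/-- `f * ∑ e_w = [K : ℚ]` if all places over `p` have norm `p ^ f`. -/
theorem mul_sum_expAt619 {p : ℕ} (hp : p.Prime) (P : Finset (HeightOneSpectrum (𝓞 K)))
    (hP : ∀ v : HeightOneSpectrum (𝓞 K), ((p : ℕ) : 𝓞 K) ∈ v.asIdeal → v ∈ P)
    (f : ℕ) (hnorm : ∀ v ∈ P, Ideal.absNorm v.asIdeal = p ^ f) :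
    f * ∑ v ∈ P, expAt619 (Ideal.span {((p : ℕ) : 𝓞 K)}) v = Module.finrank ℚ K := by
  have hI : Ideal.span {((p : ℕ) : 𝓞 K)} ≠ ⊥ := by
    rw [Ne, Ideal.span_singleton_eq_bot]
    exact_mod_cast hp.ne_zero
  have hfac := prod_expAt619 hI P (fun v hv => hP v (hv (Ideal.mem_span_singleton_self _)))
  have h1 := congrArg Ideal.absNorm hfac
  rw [map_prod, absNorm_span_natCast619] at h1
  have h2 : ∏ v ∈ P, Ideal.absNorm (v.asIdeal ^ expAt619 (Ideal.span {((p : ℕ) : 𝓞 K)}) v)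
      = p ^ (f * ∑ v ∈ P, expAt619 (Ideal.span {((p : ℕ) : 𝓞 K)}) v) := by
    rw [Finset.mul_sum, ← Finset.prod_pow_eq_pow_sum]
    refine Finset.prod_congr rfl fun v hv => ?_
    rw [map_pow, hnorm v hv, pow_mul]
  rw [h2] at h1
  exact Nat.pow_right_injective hp.two_le h1

/-- **THE CORE.** -/
theorem goodEKM_core619 (Φ : HeckeEigensystem K ℂ) (𝔑 : Ideal (𝓞 K))
    (S : Finset (HeightOneSpectrum (𝓞 K))) {p : ℕ} (hp : p.Prime)
    (hpN : ((p : ℕ) : 𝓞 K) + 1 ∈ 𝔑)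
    (hout : ∀ w : HeightOneSpectrum (𝓞 K), ((p : ℕ) : 𝓞 K) ∈ w.asIdeal →
      w ∉ S ∧ ¬ w.asIdeal ∣ 𝔑)
    (hdata : ∀ w : HeightOneSpectrum (𝓞 K), ((p : ℕ) : 𝓞 K) ∈ w.asIdeal →
      Φ.a w = 0 ∧ Φ.b w = 1)
    (f k : ℕ) (hk : Odd k) (hdeg : Module.finrank ℚ K = f * k)
    (hf : 0 < f)
    (hnorm : ∀ w : HeightOneSpectrum (𝓞 K), ((p : ℕ) : 𝓞 K) ∈ w.asIdeal →
      Ideal.absNorm w.asIdeal = p ^ f) :
    ∃ (P : Finset (HeightOneSpectrum (𝓞 K))) (e : HeightOneSpectrum (𝓞 K) → ℕ) (a₀ : 𝓞 K),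
      P.Nonempty ∧ (∀ w ∈ P, w ∉ S ∧ ¬ w.asIdeal ∣ 𝔑 ∧ 0 < e w) ∧
      Ideal.span {a₀} = ∏ w ∈ P, w.asIdeal ^ e w ∧ a₀ - 1 ∈ 𝔑 ∧
      ∀ z : HeightOneSpectrum (𝓞 K) → ℂ,
        (∀ w ∈ P, z w ^ 2 - Φ.a w * z w + Φ.b w = 0) → ∏ w ∈ P, z w ^ e w ≠ 1 := by
  classical
  set I : Ideal (𝓞 K) := Ideal.span {((p : ℕ) : 𝓞 K)} with hIdef
  have hI : I ≠ ⊥ := by
    rw [hIdef, Ne, Ideal.span_singleton_eq_bot]
    exact_mod_cast hp.ne_zero
  set P : Finset (HeightOneSpectrum (𝓞 K)) := overFinset231 K {p} with hPdef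
  have hmemP : ∀ w : HeightOneSpectrum (𝓞 K), w ∈ P ↔ ((p : ℕ) : 𝓞 K) ∈ w.asIdeal := by
    intro w
    rw [hPdef, mem_overFinset231]
    constructor
    · rintro ⟨q, hq, -, hqw⟩
      rw [Finset.mem_singleton] at hq
      subst hq
      exact hqw
    · intro h
      exact ⟨p, Finset.mem_singleton_self _, hp, h⟩
  have hle : ∀ w : HeightOneSpectrum (𝓞 K), I ≤ w.asIdeal ↔ ((p : ℕ) : 𝓞 K) ∈ w.asIdeal := by
    intro w
    rw [hIdef, Ideal.span_le, Set.singleton_subset_iff]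
    rfl
  have hsum : f * ∑ v ∈ P, expAt619 I v = Module.finrank ℚ K :=
    mul_sum_expAt619 hp P (fun v hv => (hmemP v).mpr hv) f
      (fun v hv => hnorm v ((hmemP v).mp hv))
  have hsumk : ∑ v ∈ P, expAt619 I v = k := by
    rw [hdeg] at hsum
    exact Nat.eq_of_mul_eq_mul_left hf hsum
  refine ⟨P, expAt619 I, -((p : ℕ) : 𝓞 K), ?_, ?_, ?_, ?_, ?_⟩
  · obtain ⟨v, hv⟩ := exists_place_over922 K hp
    exact ⟨v, (hmemP v).mpr hv⟩
  · intro w hw
    have hpw := (hmemP w).mp hw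
    exact ⟨(hout w hpw).1, (hout w hpw).2, (expAt_pos_iff619 hI w).mpr ((hle w).mpr hpw)⟩
  · rw [Ideal.span_singleton_neg]
    exact (prod_expAt619 hI P (fun v hv => (hmemP v).mpr ((hle v).mp hv))).symm
  · have : -((p : ℕ) : 𝓞 K) - 1 = -(((p : ℕ) : 𝓞 K) + 1) := by ring
    rw [this]
    exact 𝔑.neg_mem hpN
  · intro z hz hprod
    have hz2 : ∀ w ∈ P, z w ^ 2 = -1 := by
      intro w hw
      have h1 := hz w hw
      obtain ⟨ha, hb⟩ := hdata w ((hmemP w).mp hw)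
      rw [ha, hb] at h1
      linear_combination h1
    have hsq : (∏ w ∈ P, z w ^ expAt619 I w) ^ 2 = (-1 : ℂ) ^ k := by
      rw [← Finset.prod_pow, ← hsumk, ← Finset.prod_pow_eq_pow_sum]
      refine Finset.prod_congr rfl fun w hw => ?_
      rw [← pow_mul, mul_comm, pow_mul, hz2 w hw]
    rw [hprod, one_pow, hk.neg_one_pow] at hsq
    norm_num at hsq

end Fermat.Agent.LT.T7.H619

end
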