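import Mathlib
import Fermat.Agent.Lib.Cheb.Chebotarev
import Fermat.Agent.S55.H414.CycloPow
import Fermat.Agent.LT.H17.Board
import Fermat.Agent.LT.H130.Wall
import Fermat.Agent.LT.H701.GL23
import Fermat.Agent.LT.A2.H230.FieldE

/-!
# Row LT, tower T7, EK places WITHOUT class field theory (helper619), part 1: Chebotarev

OFF-MAIN.  For every modulus `M` and every finite set `S` of primes there is a prime `p ∉ S`,
`p ≡ -1 mod M`, with a Frobenius element `τ` at `p` such that `ρ τ = g8`, a fixed element of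
ORDER EIGHT of `GL₂(𝔽₃)` (`det g8 = -1`, `g8 ^ 4 = -1`).

Proof.  `σ = σ₀ c`: `c` a complex conjugation (cyclotomic character `-1` modulo every `M`,
`det ρ c = -1`), `σ₀` with `ρ σ₀ = g8 (ρ c)⁻¹ ∈ SL₂(𝔽₃)` and trivial cyclotomic character modulo
`M` (the elements `(s, 1)`, `det s = 1`, lie in the image of `(ρ, χ_M)`: commutators).  Then the
Chebotarev theorem over `ℚ` of main (`Lib.Cheb.chebotarev`) in `L(ζ_M)`.
-/

set_option autoImplicit false
set_option linter.unusedSectionVars false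
set_option linter.style.haveILetI false

open scoped MatrixGroups

noncomputable section

namespace Fermat.Agent.LT.T7.H619

open Fermat.Agent.LT.H130 Fermat.Agent.LT.A2.H230 Fermat.Agent.LT.H701
open Fermat.Agent.S55.H414 Fermat.Agent.S55.Bridge

local notation "Γℚ" => (AlgebraicClosure ℚ ≃ₐ[ℚ] AlgebraicClosure ℚ)
local notation "Qb" => AlgebraicClosure ℚ

/-! ## 1. The element of order eight -/

/-- An element of order `8` of `GL₂(𝔽₃)`. -/
def g8_619 : GL (Fin 2) (ZMod 3) := ⟨!![0, 1; 1, 1], !![2, 1; 1, 0], by decide, by decide⟩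

theorem g8_pow_four619 : g8_619 ^ 4 = -1 := Units.ext (by decide)

theorem g8_sq_val619 : ((g8_619 ^ 2 : GL (Fin 2) (ZMod 3)) : Matrix (Fin 2) (Fin 2) (ZMod 3))
    = !![1, 1; 1, 2] := by decide

theorem det_g8_619 : Matrix.GeneralLinearGroup.det g8_619 = -1 := Units.ext (by decide)

theorem det_g8_ne_one619 : Matrix.GeneralLinearGroup.det g8_619 ≠ 1 := by
  rw [det_g8_619]
  decide

theorem det_g8_sq619 : Matrix.GeneralLinearGroup.det (g8_619 ^ 2) = 1 := by
  rw [map_pow, det_g8_619]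
  decide

theorem inQ8_g8_sq619 : InQ8 (g8_619 ^ 2) := by
  refine ⟨det_g8_sq619, ?_⟩
  rw [← pow_mul]
  exact Units.ext (by decide)

theorem not_inQ8_g8_619 : ¬ InQ8 g8_619 := fun h => det_g8_ne_one619 h.1

theorem ordQ8_g8_619 : ordQ8 g8_619 = 2 := by
  unfold ordQ8
  rw [if_neg not_inQ8_g8_619, if_pos inQ8_g8_sq619]

theorem ordSL_g8_619 : ordSL g8_619 = 2 := by
  unfold ordSL
  rw [if_neg det_g8_ne_one619]

theorem ordQ8_g8_sq619 : ordQ8 (g8_619 ^ 2) = 1 := by
  unfold ordQ8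
  rw [if_pos inQ8_g8_sq619]

/-! ## 2. Lifting `SL₂(𝔽₃)` with trivial cyclotomic character -/

def cx619 : GL (Fin 2) (ZMod 3) := ⟨!![0, 1; 1, 0], !![0, 1; 1, 0], by decide, by decide⟩
def cy619 : GL (Fin 2) (ZMod 3) := ⟨!![1, 1; 1, 2], !![2, 2; 2, 1], by decide, by decide⟩
def dx619 : GL (Fin 2) (ZMod 3) := ⟨!![0, 1; 2, 0], !![0, 2; 1, 0], by decide, by decide⟩
def dy619 : GL (Fin 2) (ZMod 3) := ⟨!![0, 1; 1, 1], !![2, 1; 1, 0], by decide, by decide⟩

theorem gi_comm619 : gi_h701 = cx619 * cy619 * cx619⁻¹ * cy619⁻¹ := Units.ext (by decide)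

theorem gj_comm619 : gj_h701 = dx619 * dy619 * dx619⁻¹ * dy619⁻¹ := Units.ext (by decide)

section Lift

variable {ρ : Γℚ →* GL (Fin 2) (ZMod 3)} (M : ℕ) [NeZero M]

/-- The image under `ρ` of the kernel of the cyclotomic character modulo `M`. -/
def imKer619 (ρ : Γℚ →* GL (Fin 2) (ZMod 3)) (M : ℕ) [NeZero M] :
    Subgroup (GL (Fin 2) (ZMod 3)) :=
  (cycloPow M).ker.map ρ

theorem comm_mem_imKer619 (hsurj : Function.Surjective ρ) (x y : GL (Fin 2) (ZMod 3)) :
    x * y * x⁻¹ * y⁻¹ ∈ imKer619 ρ M := by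
  obtain ⟨a, rfl⟩ := hsurj x
  obtain ⟨b, rfl⟩ := hsurj y
  refine ⟨a * b * a⁻¹ * b⁻¹, ?_, by simp⟩
  rw [SetLike.mem_coe, MonoidHom.mem_ker]
  simp only [map_mul, map_inv]
  rw [mul_comm (cycloPow M a) (cycloPow M b), mul_inv_cancel_right, mul_inv_cancel]

theorem normal_imKer619 (hsurj : Function.Surjective ρ) : (imKer619 ρ M).Normal :=
  Subgroup.Normal.map (MonoidHom.normal_ker _) ρ hsurj

/-- Every element of determinant one is the image of an element with trivial cyclotomic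
character modulo `M`. -/
theorem exists_lift_sl619 (hsurj : Function.Surjective ρ) (s : GL (Fin 2) (ZMod 3))
    (hs : Matrix.GeneralLinearGroup.det s = 1) :
    ∃ σ : Γℚ, ρ σ = s ∧ cycloPow M σ = 1 := by
  haveI := normal_imKer619 (ρ := ρ) M hsurj
  let χ := QuotientGroup.mk' (imKer619 ρ M)
  have hχ : ∀ x : GL (Fin 2) (ZMod 3), x ∈ imKer619 ρ M → χ x = 1 := fun x hx =>
    (QuotientGroup.eq_one_iff x).mpr hx
  have hi : χ gi_h701 = 1 := by
    rw [gi_comm619]
    exact hχ _ (comm_mem_imKer619 M hsurj _ _)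
  have hj : χ gj_h701 = 1 := by
    rw [gj_comm619]
    exact hχ _ (comm_mem_imKer619 M hsurj _ _)
  have hc : Commute (χ gd_h701) (χ gu_h701) := by
    have h := hχ _ (comm_mem_imKer619 M hsurj gd_h701 gu_h701)
    rw [map_mul, map_mul, map_mul, map_inv, map_inv] at h
    show χ gd_h701 * χ gu_h701 = χ gu_h701 * χ gd_h701
    have h2 : χ gd_h701 * χ gu_h701 * (χ gd_h701)⁻¹ = χ gu_h701 := by
      rw [← mul_inv_eq_one]
      exact h
    calc χ gd_h701 * χ gu_h701 = (χ gd_h701 * χ gu_h701 * (χ gd_h701)⁻¹) * χ gd_h701 := by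
          group
      _ = χ gu_h701 * χ gd_h701 := by rw [h2]
  have h1 := (hom_eq_h701 χ hi hj hc s).1 hs
  have h2 : s ∈ imKer619 ρ M := (QuotientGroup.eq_one_iff s).mp h1
  obtain ⟨σ, hσ, rfl⟩ := h2
  exact ⟨σ, rfl, MonoidHom.mem_ker.mp hσ⟩

end Lift

/-! ## 3. Complex conjugation -/

/-- An embedding of `ℚ̄` in `ℂ`. -/
theorem exists_embedding619 : Nonempty (Qb →+* ℂ) :=
  haveI : Algebra.IsAlgebraic ℚ Qb := AlgebraicClosure.isAlgebraic ℚ
  ⟨(IsAlgClosed.lift (R := ℚ) (S := Qb) (M := ℂ)).toRingHom⟩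

/-- The cyclotomic character modulo `M` of a complex conjugation is `-1`. -/
theorem cycloPow_conj619 (M : ℕ) [NeZero M] (ι : Qb →+* ℂ) (c : Γℚ)
    (hc : ∀ x : Qb, ι (c x) = (starRingEnd ℂ) (ι x)) : cycloPow M c = -1 := by
  rw [cycloPow_eq_iff]
  set ζ := zetaBar M with hζ
  have hζM : ζ ^ M = 1 := (zetaBar_spec M).pow_eq_one
  set k : ℕ := ((-1 : (ZMod M)ˣ) : ZMod M).val with hk
  have hk1 : ((k + 1 : ℕ) : ZMod M) = 0 := by
    rw [Nat.cast_add, hk, ZMod.natCast_zmod_val, Units.val_neg, Units.val_one]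
    simp
  have hdvd : M ∣ k + 1 := (ZMod.natCast_eq_zero_iff _ _).mp hk1
  have hpow : ζ * ζ ^ k = 1 := by
    rw [← pow_succ']
    obtain ⟨t, ht⟩ := hdvd
    rw [ht, pow_mul, hζM, one_pow]
  have hz : ι ζ ^ M = 1 := by rw [← map_pow, hζM, map_one]
  have hnorm : ‖ι ζ‖ = 1 := Complex.norm_eq_one_of_pow_eq_one hz (NeZero.ne M)
  have h1 : ι ζ * (starRingEnd ℂ) (ι ζ) = 1 := by
    rw [Complex.mul_conj, Complex.normSq_eq_norm_sq, hnorm]
    norm_num
  have h2 : ι ζ * ι (ζ ^ k) = 1 := by rw [← map_mul, hpow, map_one]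
  have hz0 : ι ζ ≠ 0 := by
    intro h0
    rw [h0, zero_mul] at h1
    exact zero_ne_one h1
  have h3 : ι (c ζ) = ι (ζ ^ k) := by
    rw [hc]
    exact mul_left_cancel₀ hz0 (h1.trans h2.symm)
  exact ι.injective h3

/-! ## 4. Units at a place -/

/-- An integer prime to `q` is a unit at a place over `q`. -/
theorem val_natCast_eq_one619 {A : ValuationSubring Qb} {q M : ℕ} (hq : A.LiesOverPrime q)
    (hcop : Nat.Coprime q M) : A.valuation ((M : ℕ) : Qb) = 1 := by
  have hq' : A.valuation (q : Qb) < 1 := (A.mem_nonunits_iff).mp hq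
  have hcop' : IsCoprime (q : ℤ) (M : ℤ) := by
    rw [Int.isCoprime_iff_gcd_eq_one, Int.gcd_natCast_natCast]
    exact hcop
  obtain ⟨u, w, huw⟩ := hcop'
  have h1 : (u : Qb) * (q : Qb) + (w : Qb) * (M : Qb) = 1 := by
    exact_mod_cast congrArg (Int.cast : ℤ → Qb) huw
  have hsmall : A.valuation ((u : Qb) * (q : Qb)) < 1 := by
    rw [map_mul]
    exact (mul_le_of_le_one_left' (val_intCast_le_one u)).trans_lt hq'
  have hwn : A.valuation ((w : Qb) * (M : Qb)) = 1 := by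
    have : (w : Qb) * (M : Qb) = 1 + -((u : Qb) * (q : Qb)) := by linear_combination h1
    rw [this, (A.valuation).map_add_eq_of_lt_left
      (by rw [Valuation.map_neg, map_one]; exact hsmall), map_one]
  rw [map_mul] at hwn
  have hp1 : A.valuation (M : Qb) ≤ 1 := by
    have := val_intCast_le_one (A := A) (M : ℤ)
    exact_mod_cast this
  refine le_antisymm hp1 ?_
  calc (1 : A.ValueGroup)
      = A.valuation (w : Qb) * A.valuation (M : Qb) := hwn.symm
    _ ≤ 1 * A.valuation (M : Qb) := mul_le_mul_left (val_intCast_le_one w) _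
    _ = A.valuation (M : Qb) := one_mul _

/-! ## 5. The Chebotarev step -/

/-- **Primes `p ≡ -1 mod M` with Frobenius of order eight.** -/
theorem exists_frob_order8_619 {ρ : Γℚ →* GL (Fin 2) (ZMod 3)}
    {Ψ : GL (Fin 2) (ZMod 3) →* GL (Fin 2) (ℤ√(-2))} (hyp : LTB.Hyp ρ Ψ)
    (M : ℕ) [NeZero M] (S : Finset ℕ) :
    ∃ (p : ℕ) (A : ValuationSubring Qb) (τ : Γℚ),
      p.Prime ∧ p ∉ S ∧ A.LiesOverPrime p ∧ A.IsFrobeniusAt τ p ∧ ρ τ = g8_619 ∧
        ((p : ℕ) : ZMod M) = -1 := by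
  classical
  obtain ⟨ι⟩ := exists_embedding619
  obtain ⟨c, hc⟩ := exists_conj230 ι
  have hcM : cycloPow M c = -1 := cycloPow_conj619 M ι c hc
  have hcdet : Matrix.GeneralLinearGroup.det (ρ c) = -1 := by
    rw [hyp.det]
    exact cyclo_of_conj230 ι c hc
  -- the element of `G_ℚ`
  have hs : Matrix.GeneralLinearGroup.det (g8_619 * (ρ c)⁻¹) = 1 := by
    rw [map_mul, map_inv, hcdet, det_g8_619]
    decide
  obtain ⟨σ₀, hσ₀, hσ₀M⟩ := exists_lift_sl619 M hyp.surj _ hs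
  set σ : Γℚ := σ₀ * c with hσ
  have hρσ : ρ σ = g8_619 := by
    rw [hσ, map_mul, hσ₀, inv_mul_cancel_right]
  have hσM : cycloPow M σ = -1 := by
    rw [hσ, map_mul, hσ₀M, one_mul, hcM]
  -- the field
  have hopen := isOpen_ker230 hyp.cont
  haveI hLfin : FiniteDimensional ℚ (IntermediateField.fixedField ρ.ker) :=
    finiteDimensional_fixedField_of_isOpen230 ρ.ker hopen
  have hEfin : FiniteDimensional ℚ ↥(IntermediateField.fixedField ρ.ker ⊔ cycloLevel M) :=
    IntermediateField.finiteDimensional_sup _ _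
  obtain ⟨p, A, τ, hp, hpS, hA, hτ, -, hτσ⟩ :=
    Fermat.Agent.Lib.Cheb.chebotarev (IntermediateField.fixedField ρ.ker ⊔ cycloLevel M)
      hEfin σ (S ∪ M.primeFactors)
  simp only [Finset.mem_union, not_or] at hpS
  obtain ⟨hpS, hpM⟩ := hpS
  have hpndvd : ¬ p ∣ M := fun h => hpM (Nat.mem_primeFactors.mpr ⟨hp, h, NeZero.ne M⟩)
  have hcop : Nat.Coprime p M := (Nat.Prime.coprime_iff_not_dvd hp).mpr hpndvd
  -- `ρ τ = ρ σ`
  have hmem : σ⁻¹ * τ ∈ (IntermediateField.fixedField ρ.ker).fixingSubgroup := by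
    rw [IntermediateField.mem_fixingSubgroup_iff]
    intro x hx
    rw [AlgEquiv.mul_apply, hτσ x (le_sup_left (b := cycloLevel M) hx)]
    exact σ.symm_apply_apply x
  rw [fixingSubgroup_fixedField_of_isOpen230 ρ.ker hopen, MonoidHom.mem_ker, map_mul, map_inv,
    inv_mul_eq_one] at hmem
  -- the cyclotomic character
  have hζ : τ (zetaBar M) = σ (zetaBar M) :=
    hτσ _ (le_sup_right (a := IntermediateField.fixedField ρ.ker) (zetaBar_mem_cycloLevel M))
  have hτM : cycloPow M τ = cycloPow M σ :=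
    (cycloPow_eq_iff M τ (cycloPow M σ)).mpr (by rw [hζ]; exact cycloPow_spec M σ)
  have hfrob : ((cycloPow M τ : (ZMod M)ˣ) : ZMod M) = ((p : ℕ) : ZMod M) :=
    coe_cycloPow_of_apply_eq_pow M τ p
      (IsFrobeniusAt_apply_root hτ (NeZero.ne M) (val_natCast_eq_one619 hA hcop)
        (zetaBar_spec M).pow_eq_one)
  refine ⟨p, A, τ, hp, hpS, hA, hτ, hmem.symm.trans hρσ, ?_⟩
  rw [← hfrob, hτM, hσM, Units.val_neg, Units.val_one]

end Fermat.Agent.LT.T7.H619

end
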