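import Mathlib
import Fermat.Agent.LT.T7.EKM
import Fermat.Agent.LT.T7.H231.DictEF
import Fermat.Agent.LT.T7.H682.Degen
import Fermat.Agent.LT.T7.H619.EKpCheb
import Fermat.Agent.LT.T7.H619.EKMCore

/-!
# Row LT, tower T7, leaves T7.15M `SeedEKMC` and T7.16M `MidEKMC` (helper619)

OFF-MAIN.  Spec: `Fermat/Agent/LT/T7/EKM.lean` (origin/helper797@cb30661f3, sha256
4b09755e2c75eed5, byte-identical copy).  NO class field theory.

`seedEKMC619 : SeedEKMC`, `midEKMC619 : MidEKMC`, VERBATIM.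

Proof.  `M = 3 N(𝔑)`.  Chebotarev over `ℚ` (`exists_frob_order8_619`): a prime `p` outside the bad
set, `p ≡ -1 mod M`, with a Frobenius element `τ`, `ρ τ = g8` of order eight.  `a₀ = -p`.
Every place `w` over `p` is prime to `𝔑` (`p + 1 ∈ 𝔑`).
* over `E`: `N w = p ^ ordQ8 g8 = p²` (`absNorm_fieldE231`), `[E : ℚ] = 6 = 2 · 3`, and
  `SeedData` reads `a_w = tr Ψ (g8²) = 0`, `b_w = 1`;
* over `F`: `N v = p ^ (order of p mod 3) = p²` (`absNorm_eq922`), `[F : ℚ] = 2 = 2 · 1`, and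
  `MidData` reads `a_v = tr Ψ (g8²) = 0`, `b_v = 1` (`ordSL g8 = 2`, `ordQ8 (g8²) = 1`).
Then `goodEKM_core619`.
-/

set_option autoImplicit false
set_option linter.unusedSectionVars false
set_option linter.style.haveILetI false

open AutomorphicForm FLT.ExplicitLift
open IsDedekindDomain NumberField
open scoped MatrixGroups Pointwise

noncomputable section

namespace Fermat.Agent.LT.T7.H619

open Fermat.Agent.LT.H130 Fermat.Agent.LT.H556 Fermat.Agent.LT.A2.H230 Fermat.Agent.LT.T7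
open Fermat.Agent.Lib.Cheb.Spec Fermat.Agent.Lib.Cheb.H943
open Fermat.Agent.LT.T7.H231 Fermat.Agent.LT.T7.H922 Fermat.Agent.LT.T7.H682

local notation "Γℚ" => (AlgebraicClosure ℚ ≃ₐ[ℚ] AlgebraicClosure ℚ)
local notation "Qb" => AlgebraicClosure ℚ

/-- `tr Ψ (g8²) = 0`. -/
theorem trΨ_g8_sq619 {Ψ : GL (Fin 2) (ZMod 3) →* GL (Fin 2) (ℤ√(-2))}
    (hΨ : ∀ g, Matrix.GeneralLinearGroup.map red (Ψ g) = g) (ι : ℤ√(-2) →+* ℂ) :
    trΨ Ψ ι (g8_619 ^ 2) = 0 := by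
  have h4 : g8_619 ^ 2 * g8_619 ^ 2 = -1 := by
    rw [← pow_add]
    exact g8_pow_four619
  rw [trΨ_eq682, trace_lm_eq_zero682 hΨ (g8_619 ^ 2) h4, map_zero]

/-- The prime `p` of the datum, over any number field `K`. -/
theorem exists_prime619 {ρ : Γℚ →* GL (Fin 2) (ZMod 3)}
    {Ψ : GL (Fin 2) (ZMod 3) →* GL (Fin 2) (ℤ√(-2))} (hyp : LTB.Hyp ρ Ψ)
    {K : Type} [Field K] [NumberField K] (𝔑 : Ideal (𝓞 K)) (h𝔑 : 𝔑 ≠ ⊥)
    (S : Finset (HeightOneSpectrum (𝓞 K))) (B : Finset ℕ) :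
    ∃ (p : ℕ) (A : ValuationSubring Qb) (τ : Γℚ),
      p.Prime ∧ p ∉ B ∧ p ≠ 3 ∧ A.LiesOverPrime p ∧ A.IsFrobeniusAt τ p ∧ ρ τ = g8_619 ∧
        ((p : ℕ) : ZMod 3) = -1 ∧ ((p : ℕ) : 𝓞 K) + 1 ∈ 𝔑 ∧
        ∀ w : HeightOneSpectrum (𝓞 K), ((p : ℕ) : 𝓞 K) ∈ w.asIdeal →
          w ∉ S ∧ ¬ w.asIdeal ∣ 𝔑 := by
  classical
  have hn0 : Ideal.absNorm 𝔑 ≠ 0 := fun h => h𝔑 (Ideal.absNorm_eq_zero_iff.mp h)
  haveI : NeZero (3 * Ideal.absNorm 𝔑) := ⟨Nat.mul_ne_zero (by norm_num) hn0⟩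
  obtain ⟨p, A, τ, hp, hpB, hA, hτ, hρτ, hpM⟩ :=
    exists_frob_order8_619 hyp (3 * Ideal.absNorm 𝔑) (B ∪ S.image primeOf231 ∪ {3})
  simp only [Finset.mem_union, Finset.mem_singleton, not_or] at hpB
  obtain ⟨⟨hpB, hpS⟩, hp3⟩ := hpB
  have hdvd : 3 * Ideal.absNorm 𝔑 ∣ p + 1 := by
    rw [← ZMod.natCast_eq_zero_iff, Nat.cast_add, hpM]
    simp
  have h3 : ((p : ℕ) : ZMod 3) = -1 := by
    have h3dvd : 3 ∣ p + 1 := (Dvd.intro _ rfl).trans hdvd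
    have := (ZMod.natCast_eq_zero_iff (p + 1) 3).mpr h3dvd
    rw [Nat.cast_add, Nat.cast_one] at this
    exact eq_neg_of_add_eq_zero_left this
  have hmem : ((p : ℕ) : 𝓞 K) + 1 ∈ 𝔑 := by
    have hN : Ideal.absNorm 𝔑 ∣ p + 1 := (Dvd.intro_left _ rfl).trans hdvd
    obtain ⟨t, ht⟩ := hN
    have : ((p : ℕ) : 𝓞 K) + 1 = ((Ideal.absNorm 𝔑 : ℕ) : 𝓞 K) * ((t : ℕ) : 𝓞 K) := by
      have := congrArg (fun n : ℕ => (n : 𝓞 K)) ht
      simpa using this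
    rw [this]
    exact 𝔑.mul_mem_right _ (by exact_mod_cast Ideal.absNorm_mem 𝔑)
  refine ⟨p, A, τ, hp, hpB, hp3, hA, hτ, hρτ, h3, hmem, fun w hpw => ⟨?_, ?_⟩⟩
  · exact not_mem_of_prime_not_mem_image231 hp hpS hpw
  · intro hdiv
    have hle : 𝔑 ≤ w.asIdeal := Ideal.le_of_dvd hdiv
    have h1 : (1 : 𝓞 K) ∈ w.asIdeal := by
      have := w.asIdeal.sub_mem (hle hmem) hpw
      simpa using this
    exact w.isPrime.ne_top ((Ideal.eq_top_iff_one _).mpr h1)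

/-- `[F : ℚ] = 2`. -/
theorem finrank_fieldF619 {ρ : Γℚ →* GL (Fin 2) (ZMod 3)}
    {Ψ : GL (Fin 2) (ZMod 3) →* GL (Fin 2) (ℤ√(-2))} (hyp : LTB.Hyp ρ Ψ) :
    Module.finrank ℚ (fieldF ρ) = 2 := by
  haveI := isCyclotomicExtension_fieldF922 hyp
  rw [IsCyclotomicExtension.finrank (n := 3) (fieldF ρ)
    (Polynomial.cyclotomic.irreducible_rat (by norm_num))]
  decide

/-- **LEAF T7.15M `SeedEKMC`.** -/
theorem seedEKMC619 : SeedEKMC := by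
  intro ρ Ψ ι hyp nfE Φ hseed
  haveI := nfE
  obtain ⟨S₀, hS₀⟩ := hseed
  intro 𝔑 h𝔑 S
  classical
  haveI nE := normal_fieldE231 ρ
  haveI gE : IsGalois ℚ (fieldE ρ) := isGalois_iff.mpr ⟨inferInstance, nE⟩
  obtain ⟨BE, hBE⟩ := frobStatement (fieldE ρ)
  obtain ⟨p, A, τ, hp, hpB, -, hA, hτ, hρτ, -, hpN, hout⟩ :=
    exists_prime619 hyp 𝔑 h𝔑 S (S₀ ∪ BE)
  simp only [Finset.mem_union, not_or] at hpB
  obtain ⟨hp0, hpBE⟩ := hpB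
  refine goodEKM_core619 Φ 𝔑 S hp hpN hout ?_ 2 3 (by decide) ?_ (by norm_num) ?_
  · intro w hpw
    obtain ⟨ha, hb⟩ := hS₀ p hp hp0 A hA τ hτ w hpw
    rw [hρτ, ordQ8_g8_619] at ha
    exact ⟨ha.trans (trΨ_g8_sq619 hyp.lift ι), hb⟩
  · rw [finrank_fieldE_eq231 hyp.cont hyp.surj, finrank_fieldF619 hyp]
  · intro w hpw
    have h := absNorm_fieldE231 hyp.cont hp hA hτ
      (fun P hP hpP => (hBE p hp hpBE P hP hpP).1) w hpw
    rw [hρτ, ordQ8_g8_619] at h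
    exact h

/-- **LEAF T7.16M `MidEKMC`.** -/
theorem midEKMC619 : MidEKMC := by
  intro ρ Ψ ι hyp nfF π hmid
  haveI := nfF
  obtain ⟨S₀, hS₀⟩ := hmid
  intro 𝔑 h𝔑 S
  classical
  haveI hcyc := isCyclotomicExtension_fieldF922 hyp
  obtain ⟨p, A, τ, hp, hp0, hp3, hA, hτ, hρτ, h3, hpN, hout⟩ :=
    exists_prime619 hyp 𝔑 h𝔑 S S₀
  refine goodEKM_core619 π 𝔑 S hp hpN hout ?_ 2 1 (by decide) ?_ (by norm_num) ?_
  · intro v hpv
    obtain ⟨ha, hb⟩ := hS₀ p hp hp0 A hA τ hτ v hpv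
    rw [hρτ, ordSL_g8_619, ordQ8_g8_sq619, satakePow_one, pow_one] at ha
    exact ⟨ha.trans (trΨ_g8_sq619 hyp.lift ι), hb⟩
  · rw [finrank_fieldF619 hyp]
  · intro v hpv
    have h := absNorm_eq922 (fieldF ρ) hp hp3 v hpv
    rw [h3] at h
    have ho : orderOf (-1 : ZMod 3) = 2 := by
      rw [orderOf_eq_iff (by norm_num)]
      decide
    rw [ho] at h
    exact h

end Fermat.Agent.LT.T7.H619

end
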